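import Fermat.Agent.LTG.W1.Auto
import Fermat.Agent.LTG.W1.Fam
import Fermat.Agent.LT3.Coef.Avg

/-!
# Weight one: the invariant sums of a family

The functions of `A`, indexed by all matrices modulo `9E`, and an equivariant family `W` form an
`IsEigPair`, to which the generic samples and averaging identities apply.
-/

set_option autoImplicit false
open Matrix

namespace Fermat.LTG.W1
open Fermat.LT Fermat.LT3

variable {K : Type*} [Field K] [NumberField K] [NumberField.IsTotallyComplex K] {D : KData K}
variable {E : ℕ} [NeZero E] (A : Auto D E) {W : Fam E}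

/-- A sum over the classes is invariant under an integral matrix. -/
lemma sum_gr_mul {β : Type*} [AddCommMonoid β] (γ : GL (Fin 2) EI) (f : GN (3 * E) → β) :
    ∑ M : GN (3 * E), f (gr (3 * (3 * E)) γ * M) = ∑ M : GN (3 * E), f M :=
  Equiv.sum_comp (Equiv.mulLeft (gr (3 * (3 * E)) γ : GN (3 * E))) f

/-- The functions indexed by all matrices modulo `9E`, paired with the family. -/
lemma Auto.pair (hW : IsEqv W) : IsEigPair A.Φ W where
  isEig := A.isEig
  bound := A.bound.imp fun _ h => ⟨(norm_nonneg _).trans (h 1 base), h⟩
  wbound := hW.exists_bound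
  smul γ := ⟨Equiv.mulLeft (gr (3 * (3 * E)) γ), A.inv γ, hW.smul γ⟩

/-- The invariant function pairing `Φ` with the family `W` at norm `n`. -/
noncomputable def sG (n : ℤ) (W : Fam E) (F : ℝ → ℂ) (w : H3) : ℂ :=
  pairSum n A.Φ W F w

end Fermat.LTG.W1
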