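import Fermat.Agent.LTG.W1.Coef.Avg
import Fermat.Agent.LT3.Coef.Hecke

/-!
# Weight one: the Hecke relation of the samples

At a prime `π` of degree one with `p = norm π` prime to `3E`:
`λ I_n[F] = I_{pn}[F(·/√p)] + p I_{n/p}[F(√p ·)]`.
-/

set_option autoImplicit false
open Matrix hiding vec
open MeasureTheory Filter

namespace Fermat.LTG.W1
open Fermat.LT Fermat.LT3

variable {K : Type*} [Field K] [NumberField K] [NumberField.IsTotallyComplex K] {D : KData K}
variable {E : ℕ} [NeZero E] (A : Auto D E) {W : Fam E} {π : EI} {p : ℕ}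

variable [hp : Fact p.Prime]

/-- The family at a Hecke translate, through the adjugate. -/
lemma adj_gJR (hW : IsHFam W) (hu : IsUnit (red (3 * (3 * E)) π)) (j : Option (ZMod p))
    (M : GN (3 * E)) (X : Lz) :
    W (gJR E π hu j * M) X = W M (dact (gJ π p j).adjugate X) :=
  hW.adj _ _ M (gJR_val hu j).symm X

omit hp in
/-- The family at the scalar of norm `p` multiplies the lattice point by `p`. -/
lemma adj_scal (hW : IsHFam W) (hn : QuadraticAlgebra.norm π = (p : ℤ))
    (hu : IsUnit (red (3 * (3 * E)) π)) (M : GN (3 * E)) (X : Lz) :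
    W (upG hu.unit 0 hu.unit * M) X = W M ((p : ℤ) • X) := by
  rw [hW.adj (π • 1) _ M ?_ X]
  · congr 1
    have e : (π • (1 : Matrix (Fin 2) (Fin 2) EI)).adjugate = π • 1 := by
      rw [Matrix.adjugate_smul, Matrix.adjugate_one]; simp
    rw [e, smul_dact π _ _ _ hn, dact_one]
  · ext a b : 1
    fin_cases a <;> fin_cases b <;> simp

/-- A term of the Hecke operator applied to `sG`. -/
noncomputable def hTerm (hu : IsUnit (red (3 * (3 * E)) π)) (h : π ≠ 0) (n : ℤ) (W : Fam E)
    (F : ℝ → ℂ) (j : Option (ZMod p)) (w : H3) : ℂ :=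
  (rho0 w : ℂ) * ∑ M : GN (3 * E),
    A.Φ ((gJR E π hu j)⁻¹ * M) ((gJC π h j)⁻¹ • w) * aM n (W M) F w

omit hp in
/-- The terms of the Hecke operator are integrable. -/
lemma integrable_hTerm (hu : IsUnit (red (3 * (3 * E)) π)) (h : π ≠ 0) (hW : IsEqv W) (n : ℤ)
    {F : ℝ → ℂ} (hF : Samp.Decay F) (j : Option (ZMod p)) :
    Integrable (hTerm A hu h n W F j) hmeas := by
  have h' := integrable_rho0_pairSum
    (φ := fun (M : GN (3 * E)) w => A.Φ ((gJR E π hu j)⁻¹ * M) ((gJC π h j)⁻¹ • w))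
    (fun M => ((A.cont ((gJR E π hu j)⁻¹ * M)).comp
      (continuous_const_smul (gJC π h j)⁻¹)).measurable)
    (A.bound.imp fun _ hC => ⟨(norm_nonneg _).trans (hC 1 base), fun _ _ => hC _ _⟩)
    hW.exists_bound n hF
  exact h'

/-- The terms sum to the eigenvalue times the weighted `sG`. -/
lemma sum_hTerm (hπ : Prime π) (hu : IsUnit (red (3 * (3 * E)) π)) (DD : DegOne π p) (n : ℤ)
    (F : ℝ → ℂ) (w : H3) :
    ∑ j : Option (ZMod p), hTerm A hu hπ.ne_zero n W F j w
      = (A.lam π : ℂ) * ((rho0 w : ℂ) * sG A n W F w) := by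
  simp only [hTerm, sG, pairSum, ← Finset.mul_sum]
  rw [Finset.sum_comm, mul_left_comm (A.lam π : ℂ), Finset.mul_sum (a := (A.lam π : ℂ))]
  congr 1
  refine Finset.sum_congr rfl fun M _ => ?_
  rw [← Finset.sum_mul, ← mul_assoc (A.lam π : ℂ), ← A.hecke π hπ hu _ (exists_rep DD) M w,
    sum_image_rep, Fintype.sum_option, add_comm]
  rfl

/-- A term after substituting the neighbour. -/
lemma hTerm_smul (hu : IsUnit (red (3 * (3 * E)) π)) (h : π ≠ 0) (hW : IsHFam W)
    (hn : QuadraticAlgebra.norm π = (p : ℤ)) (n : ℤ) (F : ℝ → ℂ) (j : Option (ZMod p)) (v : H3) :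
    hTerm A hu h n W F j (gJC π h j • v)
      = (rho0 (gJC π h j • v) : ℂ) * hFun A.Φ W n p F (gJ π p j) v := by
  simp only [hTerm, inv_smul_smul, hFun]
  congr 1
  rw [← Equiv.sum_comp (Equiv.mulLeft (gJR E π hu j))]
  refine Finset.sum_congr rfl fun M _ => ?_
  simp only [Equiv.coe_mulLeft, inv_mul_cancel_left]
  congr 1
  rw [aM, hSer]
  refine tsum_congr fun X => ?_
  rw [adj_gJR hW hu, lin_gJC_smul hn h, dn]

/-- **The relation, integrated.** At a prime of degree one the eigenvalue times the averaged sample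
is the average of the sum of `hFun` over the `p + 1` translates. -/
theorem hecke_integral (hW : IsHFam W) (hπ : Prime π) (hn : QuadraticAlgebra.norm π = (p : ℤ))
    (h9 : IsUnit (p : ZMod (3 * (3 * E)))) (DD : DegOne π p) (n : ℤ) {F : ℝ → ℂ}
    (hF : Samp.Decay F) :
    (A.lam π : ℂ) * ∫ w, (rho0 w : ℂ) * sG A n W F w ∂hmeas
      = ∫ u, (rho0 u : ℂ) *
          ∑ j : Option (ZMod p), hFun A.Φ W n p F (gJ π p j).adjugate u ∂hmeas := by
  have hu := isUnit_red_of_norm hn h9
  obtain ⟨C, -, hC⟩ := exists_hFun_bound (A.pair hW.toIsFam.eqv) hn n hF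
  have hQi : ∀ k,
      Integrable (fun u => (rho0 u : ℂ) * hFun A.Φ W n p F (gJ π p k).adjugate u) hmeas :=
    fun k => integrable_rho0_mul (measurable_hFun (A.pair hW.toIsFam.eqv) n hF _)
      (hC _ (by rw [det_gJ_adjugate]))
  have hti := integrable_hTerm A (p := p) hu hπ.ne_zero hW.toIsFam.eqv n hF
  simp only [← integral_const_mul, ← sum_hTerm A hπ hu DD, integral_finsetSum _ fun j _ => hti j,
    Finset.mul_sum, integral_finsetSum _ fun k _ => hQi k]
  exact sum_integral_unfold DD hπ.ne_zero (hFun_mul_right (A.pair hW.toIsFam.eqv) n F)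
    (hFun_mul_left n F) hti
    (hTerm_smul A hu hπ.ne_zero hW hn n F) hQi

/-- **The multiplicities.** The `p + 1` translates add up to the sample at `p n` of `dn p F` plus,
if `p ∣ n`, `p` times that at `n / p` of `up p F`. -/
theorem sum_hFun_eq (hW : IsHFam W) (hn : QuadraticAlgebra.norm π = (p : ℤ))
    (h9 : IsUnit (p : ZMod (3 * (3 * E)))) (DD : DegOne π p) (n : ℤ) {F : ℝ → ℂ} (hF : Samp.Decay F)
    (u : H3) :
    ∑ j : Option (ZMod p), hFun A.Φ W n p F (gJ π p j).adjugate u
      = sG A ((p : ℤ) * n) W (dn p F) u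
        + if (p : ℤ) ∣ n then (p : ℂ) * sG A (n / (p : ℤ)) W (up p F) u else 0 := by
  have hu := isUnit_red_of_norm hn h9
  exact sum_hFun_eq_pairSum hW.toIsFam.eqv.exists_bound DD hn n hF u
    (Equiv.mulLeft (upG hu.unit 0 hu.unit : GN (3 * E)))
    (fun M X => (adj_scal hW hn hu M X).symm) fun M => A.scal _ M u

end Fermat.LTG.W1
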