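import Fermat.Agent.LTG.W1.Coef.Hecke
import Fermat.Agent.LT3.Coef.Kappa

/-!
# Weight one: the coefficients `κ_n`

For `n > 0` the functional of norm `n` is `κ_n ∫ F`, for `n < 0` it is
`κ_n ∫ r sinh r F(√(|n|/3) cosh r)`; the coefficients grow subexponentially and satisfy the Hecke
relations at the primes prime to `3E`.
-/

set_option autoImplicit false
open MeasureTheory
open scoped Real

namespace Fermat.LTG.W1
open Fermat.LT Fermat.LT3

variable {K : Type*} [Field K] [NumberField K] [NumberField.IsTotallyComplex K] {D : KData K}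
variable {E : ℕ} [NeZero E] (A : Auto D E) {W : Fam E}

/-- The functional of norm `n`. -/
noncomputable def cI (W : Fam E) (n : ℤ) (F : ℝ → ℂ) : ℂ := pairI A.Φ W n F

/-- **The coefficients.** `kap A W n` is the coefficient `κ_n` of the functional of norm `n` of the
family `W`. -/
noncomputable def kap (W : Fam E) (n : ℤ) : ℂ := pairCoef A.Φ W n

/-- **Positive norms.** For `n > 0` and even `F` the functional of norm `n` is `κ_n` times the
integral of `F`. -/
theorem cI_pos (hW : IsFam W) {n : ℤ} (hn : 0 < n) {F : ℝ → ℂ} (hF : Samp.Decay F)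
    (he : IsEvenF F) : cI A W n F = kap A W n * ∫ x, F x :=
  pairI_pos (A.pair hW.eqv) hn hF he

/-- **Subexponential growth.** For every `ε > 0` the coefficients are `O(exp (ε |n|))`. -/
theorem exists_kap_bound (hW : IsFam W) {ε : ℝ} (hε : 0 < ε) :
    ∃ C, 0 ≤ C ∧ ∀ n : ℤ, ‖kap A W n‖ ≤ C * Real.exp (ε * |(n : ℝ)|) :=
  exists_pairCoef_bound (A.pair hW.eqv) hε

/-- The coefficient at `n / p`. -/
noncomputable def kapDiv (W : Fam E) (p : ℕ) (n : ℤ) : ℂ :=
  if (p : ℤ) ∣ n then kap A W (n / (p : ℤ)) else 0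

variable {π' : EI} {p : ℕ}

/-- The relation of the functionals. -/
lemma cI_hecke (hW : IsHFam W) (hπ : Prime π') (hn : QuadraticAlgebra.norm π' = (p : ℤ))
    (hp : p.Prime) (h9 : IsUnit (p : ZMod (3 * (3 * E)))) (n : ℤ) {F : ℝ → ℂ} (hF : Samp.Decay F) :
    (A.lam π' : ℂ) * cI A W n F = cI A W ((p : ℤ) * n) (dn p F)
      + if (p : ℤ) ∣ n then (p : ℂ) * cI A W (n / (p : ℤ)) (up p F) else 0 := by
  have := Fact.mk hp
  obtain ⟨DD⟩ := exists_degOne hn (ne_three_of_isUnit h9)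
  exact pairI_hecke_of_eq (A.pair hW.toIsFam.eqv) hp.pos n hF (hecke_integral A hW hπ hn h9 DD n hF)
    (sum_hFun_eq A hW hn h9 DD n hF)

/-- **Positive coefficients.** For `n > 0` the eigenvalue times `κ_n` is `√p` times the sum of
`κ_{pn}` and `kapDiv`. -/
theorem kap_hecke_pos (hW : IsHFam W) (hπ : Prime π') (hnm : QuadraticAlgebra.norm π' = (p : ℤ))
    (hp : p.Prime) (h9 : IsUnit (p : ZMod (3 * (3 * E)))) {n : ℤ} (hn : 0 < n) :
    (A.lam π' : ℂ) * kap A W n
      = (Real.sqrt p : ℂ) * (kap A W ((p : ℤ) * n) + kapDiv A W p n) :=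
  pairCoef_hecke_pos (A.pair hW.toIsFam.eqv) hp.pos
    (fun m {_} hF => cI_hecke A hW hπ hnm hp h9 m hF) hn

/-- **Negative coefficients.** For `n < 0` the eigenvalue times `κ_n` is `κ_{pn}` plus `p` times
`kapDiv`. -/
theorem kap_hecke_neg (hW : IsHFam W) (hπ : Prime π') (hnm : QuadraticAlgebra.norm π' = (p : ℤ))
    (hp : p.Prime) (h9 : IsUnit (p : ZMod (3 * (3 * E)))) {n : ℤ} (hn : n < 0) :
    (A.lam π' : ℂ) * kap A W n = kap A W ((p : ℤ) * n) + (p : ℂ) * kapDiv A W p n :=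
  pairCoef_hecke_neg (A.pair hW.toIsFam.eqv) hp.pos
    (fun m {_} hF => cI_hecke A hW hπ hnm hp h9 m hF) hn

end Fermat.LTG.W1
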