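import Fermat.Agent.LTG.W1.Coef.Kappa

/-!
# Weight one: the functional of norm zero vanishes

At the origin the averaging identity compares the spherical transform with the volume of the
profile, which differ. On the isotropic points it says that `s ↦ eˢ I(F(eˢ ·))` satisfies the mean
value property; this function tends to zero as the Siegel set contains few points of small height.
-/

set_option autoImplicit false
open MeasureTheory Filter Set
open scoped Real Topology Classical

namespace Fermat.LTG.W1
open Fermat.LT Fermat.LT3 Fermat.LT.Theta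

/-- A profile at distance from `1`. -/
noncomputable def kHat (c : ℝ) : ℝ := max 0 (1 - |c - 2|)

/-- The profile is continuous. -/
lemma continuous_kHat : Continuous kHat := by unfold kHat; fun_prop

/-- The profile has compact support. -/
lemma hasCompactSupport_kHat : HasCompactSupport kHat :=
  HasCompactSupport.of_support_subset_isCompact (K := Icc 1 3) isCompact_Icc fun c hc => by
    by_contra h
    refine hc (max_eq_left ?_)
    rw [Set.mem_Icc, not_and_or, not_le, not_le] at h
    rcases h with h | h
    · linarith [neg_abs_le (c - 2)]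
    · linarith [le_abs_self (c - 2)]

/-- `arcosh C < √(C² - 1)` for `C > 1`. -/
lemma arcosh_lt {C : ℝ} (hC : 1 < C) : Real.arcosh C < Real.sqrt (C ^ 2 - 1) := by
  set r := Real.arcosh C
  have hr : Real.cosh r = C := Real.cosh_arcosh hC.le
  have hr0 : 0 < r := Real.arcosh_pos hC
  rw [← hr, show Real.cosh r ^ 2 - 1 = Real.sinh r ^ 2 by rw [Real.cosh_sq]; ring,
    Real.sqrt_sq (Real.sinh_pos_iff.2 hr0).le]
  exact Real.self_lt_sinh_iff.2 hr0

/-- The constant is not an eigenfunction with parameter zero. -/
lemma hhat0_ne_integral : ∀ u : H3,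
    ∫ w, (kHat (coshd w u) : ℂ) ∂hmeas ≠ hhat0 kHat := by
  intro u h
  have hk := continuous_kHat
  have hks := hasCompactSupport_kHat
  have hv : lin ((0, 1, 0) : HV) u ^ 2 + qf ((0, 1, 0) : HV) > 0 := by
    simp [qf]; positivity
  have h1 := integral_kernel_lin hk hks (F := fun _ => (1 : ℂ)) continuous_const (M := 1)
    (fun _ => norm_one.le) ((0, 1, 0) : HV) u hv
  simp only [mul_one] at h1
  rw [show (fun w => (kHat (coshd w u) : ℂ)) = fun w => (kHat (coshd u w) : ℂ) from
    funext fun w => by rw [coshd_comm], h1, hhat0_arcosh hk hks] at h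
  have h2 := mul_left_cancel₀ (by simp [Real.pi_ne_zero]) h
  have hd : ∀ C, dAv (qf ((0, 1, 0) : HV)) (fun _ => (1 : ℂ)) C (lin ((0, 1, 0) : HV) u)
      = ((2 * Real.sqrt (C ^ 2 - 1) : ℝ) : ℂ) := fun C => by
    rw [dAv, intervalIntegral.integral_const, smul_smul]
    simp only [Complex.real_smul, mul_one]
    congr 1
    field_simp
    ring
  simp only [hd, ← Complex.ofReal_mul, integral_complex_ofReal] at h2
  have h3 := Complex.ofReal_injective h2
  set G : ℝ → ℝ := fun C => kHat C * (2 * (Real.sqrt (C ^ 2 - 1) - Real.arcosh C))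
  have hi : ∀ g : ℝ → ℝ, ContinuousOn g (Ici 1) →
      IntegrableOn (fun C => kHat C * g C) (Ioi 1) := fun g hg => by
    refine IntegrableOn.of_forall_sdiff_eq_zero (s := Icc 1 3)
      ((hk.continuousOn.mul (hg.mono fun x hx => hx.1)).integrableOn_Icc) measurableSet_Ioi
      fun C hC => ?_
    have : kHat C = 0 := max_eq_left (by
      have : 3 < C := not_le.1 fun h => hC.2 ⟨(le_of_lt hC.1), h⟩
      linarith [le_abs_self (C - 2)])
    rw [this, zero_mul]
  have hc1 : ContinuousOn (fun C : ℝ => 2 * Real.sqrt (C ^ 2 - 1)) (Ici 1) := by fun_prop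
  have hc2 : ContinuousOn (fun C : ℝ => 2 * Real.arcosh C) (Ici 1) := by
    unfold Real.arcosh
    refine continuousOn_const.mul (ContinuousOn.log (by fun_prop) fun x (hx : 1 ≤ x) => ?_)
    have := Real.sqrt_nonneg (x ^ 2 - 1); linarith
  -- an eigenvalue would make `∫ G = 0`
  have hG : ∫ C in Ioi (1 : ℝ), G C = 0 := by
    simp only [G, mul_sub]
    rw [integral_sub (hi _ hc1) (hi _ hc2), h3, sub_self]
  have hGi : IntegrableOn G (Ioi 1) := by
    refine ((hi _ hc1).sub (hi _ hc2)).congr_fun (fun C _ => ?_) measurableSet_Ioi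
    simp only [G, Pi.sub_apply]; ring
  -- but `G` is positive
  have hpos : 0 < ∫ C in Ioi (1 : ℝ), G C := by
    rw [setIntegral_pos_iff_support_of_nonneg_ae (f := G)
      (ae_restrict_of_forall_mem measurableSet_Ioi fun C hC => mul_nonneg (le_max_left _ _)
        (mul_nonneg zero_le_two (sub_nonneg.2 (arcosh_lt hC).le))) hGi]
    refine lt_of_lt_of_le ?_ (measure_mono (s := Ioo (3 / 2 : ℝ) 2) fun C hC => ⟨?_, ?_⟩)
    · rw [Real.volume_Ioo]; norm_num
    · have h1 : (1 : ℝ) < C := by linarith [hC.1]
      refine ne_of_gt (mul_pos (lt_max_of_lt_right ?_) (mul_pos two_pos (sub_pos.2 (arcosh_lt h1))))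
      rw [abs_of_nonpos (by linarith [hC.2])]; linarith [hC.1]
    · change 1 < C
      linarith [hC.1]
  linarith

variable {K : Type*} [Field K] [NumberField K] [NumberField.IsTotallyComplex K] {D : KData K}
variable {E : ℕ} [NeZero E] (A : Auto D E) {W : Fam E}

/-- The part at the origin. -/
noncomputable def orig (W : Fam E) : Fam E := fun M X => if X = 0 then W M 0 else 0

/-- The part away from the origin. -/
noncomputable def punct (W : Fam E) : Fam E := fun M X => if X = 0 then 0 else W M X

/-- An invertible matrix kills only the origin. -/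
lemma dact_eq_zero_iff (γ : GL (Fin 2) EI) (X : Lz) : dact γ.val X = 0 ↔ X = 0 := by
  have h0 : dact γ.val 0 = 0 := by simpa using dact_smul γ.val 0 0
  refine ⟨fun h => ?_, fun h => h ▸ h0⟩
  exact (dequiv γ).injective (h.trans h0.symm)

/-- The part at the origin is equivariant. -/
lemma isEqv_orig (hW : IsEqv W) : IsEqv (orig W) where
  exists_bound := by
    obtain ⟨B, h0, hB⟩ := hW.exists_bound
    refine ⟨B, h0, fun M X => ?_⟩
    simp only [orig]; split_ifs
    · exact hB _ _
    · simpa using h0
  smul γ M X := by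
    have h := hW.smul γ M 0
    rw [(dact_eq_zero_iff γ 0).2 rfl] at h
    simp only [orig, dact_eq_zero_iff, h]

/-- The part away from the origin is equivariant. -/
lemma isEqv_punct (hW : IsEqv W) : IsEqv (punct W) where
  exists_bound := by
    obtain ⟨B, h0, hB⟩ := hW.exists_bound
    refine ⟨B, h0, fun M X => ?_⟩
    simp only [punct]; split_ifs
    · simpa using h0
    · exact hB _ _
  smul γ M X := by simp only [punct, dact_eq_zero_iff, hW.smul]

/-- The form vanishes at the origin. -/
lemma q3_zero : q3 (0 : Lz) = 0 := by simp [q3, qd]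

/-- The sum of the part at the origin is its one term. -/
lemma aM_orig (F : ℝ → ℂ) (M : GN (3 * E)) (w : H3) : aM 0 (orig W M) F w = W M 0 * F 0 := by
  rw [aM, tsum_eq_single (⟨0, q3_zero⟩ : {X : Lz // q3 X = 0}) fun X hX => by
    simp [orig, show X.1 ≠ 0 from fun h => hX (Subtype.ext h)]]
  have : lin (vec (0 : Lz)) w = 0 := by
    rw [lin_eq_coord]; simp [vec, num, demb]
  simp [orig, this]

/-- **The origin.** The average of the values of an equivariant family at the origin against the
function vanishes. -/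
theorem integral_orig (hW : IsEqv W) :
    ∫ w, (rho0 w : ℂ) * ∑ M : GN (3 * E), A.Φ M w * W M 0 ∂hmeas = 0 := by
  have hk := continuous_kHat
  have hks := hasCompactSupport_kHat
  have hdec := decay_gs Real.pi_pos
  have hg0 : gs π 0 = 1 := by simp [gs]
  set S : H3 → ℂ := fun u => ∑ M : GN (3 * E), A.Φ M u * W M 0
  set I0 := ∫ w, (rho0 w : ℂ) * S w ∂hmeas
  obtain ⟨h1, h2⟩ := integrable_weighted (n := 0) (A.pair (isEqv_orig hW)) hk hks hdec
  simp only [aM_orig, hg0, mul_one] at h1 h2
  have hinv : ∀ (δ : GL (Fin 2) EI) u, S (gC δ • u) = S u := fun δ u => by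
    simp only [S]
    rw [← sum_gr_mul δ fun N => A.Φ N (gC δ • u) * W N 0]
    refine Finset.sum_congr rfl fun M _ => ?_
    have h := hW.smul δ M 0
    rw [(dact_eq_zero_iff δ 0).2 rfl] at h
    rw [A.inv, h]
  have hswap := swap_weight (G := fun p => (kHat (coshd p.1 p.2) : ℂ) * S p.2)
    (fun δ w u => by simp only [coshd_smul, hinv]) h1 h2
  rw [integral_prod _ h1, integral_prod_symm _ h2] at hswap
  obtain ⟨Cp, hCp⟩ := A.bound
  -- one order gives the eigenvalue
  have hL : ∀ w, ∫ u, (rho0 w : ℂ) * ((kHat (coshd w u) : ℂ) * S u) ∂hmeas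
      = hhat0 kHat * ((rho0 w : ℂ) * S w) := fun w => by
    have e : (fun u => (rho0 w : ℂ) * ((kHat (coshd w u) : ℂ) * S u)) = fun u =>
        ∑ M : GN (3 * E), ((rho0 w : ℂ) * W M 0) * ((kHat (coshd w u) : ℂ) * A.Φ M u) := by
      funext u; simp only [S, Finset.mul_sum]; exact Finset.sum_congr rfl fun M _ => by ring
    rw [e, integral_finsetSum _ fun M _ => (integrable_kernel_mul hk hks w (A.cont M).measurable
      (fun u _ => hCp M u)).const_mul _]
    simp only [S, Finset.mul_sum]
    refine Finset.sum_congr rfl fun M _ => ?_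
    rw [integral_const_mul, A.arch kHat hk hks]
    ring
  set κ := ∫ w, (kHat (coshd w base) : ℂ) ∂hmeas
  -- the other order gives `κ`
  have hR : ∀ u, ∫ w, (rho0 u : ℂ) * ((kHat (coshd w u) : ℂ) * S u) ∂hmeas
      = κ * ((rho0 u : ℂ) * S u) := fun u => by
    obtain ⟨g, rfl⟩ := QuotientGroup.mk_surjective u
    have e : κ = ∫ w, (kHat (coshd w (g • base)) : ℂ) ∂hmeas := by
      rw [← (measurePreserving_smul_H3 g).integral_comp (measurableEmbedding_const_smul g)]
      simp only [coshd_smul]
      rfl
    rw [show (g : H3) = g • base from by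
      rw [base, MulAction.Quotient.smul_coe, smul_eq_mul, mul_one], e,
      show (fun w => (rho0 (g • base) : ℂ) * ((kHat (coshd w (g • base)) : ℂ) * S (g • base)))
        = fun w => ((rho0 (g • base) : ℂ) * S (g • base)) * (kHat (coshd w (g • base)) : ℂ) from
      funext fun w => by ring, integral_const_mul, mul_comm]
  have hswap2 : ∫ w, hhat0 kHat * ((rho0 w : ℂ) * S w) ∂hmeas
      = ∫ u, κ * ((rho0 u : ℂ) * S u) ∂hmeas :=
    (integral_congr_ae (Eventually.of_forall hL)).symm.trans
      (hswap.trans (integral_congr_ae (Eventually.of_forall hR)))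
  rw [integral_const_mul, integral_const_mul] at hswap2
  by_contra h0
  exact hhat0_ne_integral base (mul_right_cancel₀ h0 hswap2).symm

/-- The isotropic points have positive height. -/
lemma lin_ne_zero {X : Lz} (hq : q3 X = 0) (hX : X ≠ 0) (w : H3) : lin (vec X) w ≠ 0 := by
  intro h
  rw [lin_eq_coord] at h
  set z := (H3.coord w).1
  have ht := H3.coord_pos w
  set t := (H3.coord w).2
  have hqf : qf (vec X) = 0 := by
    have h2 := q3_eq X
    rw [hq] at h2
    simpa using h2
  -- height zero gives `num + d t² = 0`; isotropy makes `d num` a square norm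
  have h1 : num (vec X) z + (vec X).2.2 * t ^ 2 = 0 := by
    field_simp at h; linarith
  have hd : (vec X).2.2 * num (vec X) z
      = Complex.normSq ((vec X).2.1 - ((vec X).2.2 : ℂ) * z) := by
    rw [qf] at hqf
    rw [num, Complex.normSq_sub, map_mul, Complex.normSq_ofReal]
    simp [Complex.mul_re, Complex.conj_re, Complex.conj_im]
    linear_combination -hqf
  -- both vanish as `t` is positive
  have h2 : Complex.normSq ((vec X).2.1 - ((vec X).2.2 : ℂ) * z) = 0 ∧ (vec X).2.2 = 0 := by
    have hn := Complex.normSq_nonneg ((vec X).2.1 - ((vec X).2.2 : ℂ) * z)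
    rw [← hd] at hn ⊢
    have e : (vec X).2.2 * num (vec X) z = -((vec X).2.2 * t) ^ 2 := by
      linear_combination (vec X).2.2 * h1
    have : ((vec X).2.2 * t) ^ 2 = 0 := le_antisymm (by linarith) (sq_nonneg _)
    rw [sq_eq_zero_iff, mul_eq_zero] at this
    have hd0 := this.resolve_right ht.ne'
    exact ⟨by rw [hd0, zero_mul], hd0⟩
  obtain ⟨hb, hd0⟩ := h2
  rw [Complex.normSq_eq_zero, hd0] at hb
  simp at hb
  -- so all coordinates of `X` are zero
  refine hX (vec_injective (Prod.ext ?_ (Prod.ext ?_ ?_)))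
  · simp [num, hb, hd0] at h1
    simpa [vec] using h1
  · rw [hb]
    exact (Complex.ext (by simp [vec, demb]) (by simp [vec, demb]))
  · simpa [vec] using hd0

/-- The part away from the origin is non-degenerate. -/
lemma nondeg_punct (W : Fam E) : Nondeg 0 (punct W) := fun M X =>
  Eventually.of_forall fun u => by
    by_cases hX : X.1 = 0
    · exact Or.inl (if_pos hX)
    · refine Or.inr ?_
      have h2 := q3_eq X.1
      rw [X.2] at h2
      have : qf (vec X.1) = 0 := by simpa using h2
      rw [this, add_zero]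
      exact pow_two_pos_of_ne_zero (lin_ne_zero X.2 hX u)

/-- A test function at the scale `exp s`. -/
noncomputable def scF (F : ℝ → ℂ) (s x : ℝ) : ℂ := (Real.exp s : ℂ) * F (Real.exp s * x)

/-- Scaling rescales the support. -/
lemma supp_scF {F : ℝ → ℂ} {B : ℝ} (hB : Supp B F) (s : ℝ) :
    Supp (B * Real.exp (-s)) (scF F s) := fun x hx => by
  rw [scF, hB _ ?_, mul_zero]
  rw [abs_mul, abs_of_pos (Real.exp_pos s)]
  calc B = Real.exp s * (B * Real.exp (-s)) := by
        rw [mul_left_comm, ← Real.exp_add, add_neg_cancel, Real.exp_zero, mul_one]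
    _ < Real.exp s * |x| := mul_lt_mul_of_pos_left hx (Real.exp_pos s)

/-- The average is a mean in the scale. -/
lemma avg_eq_scale {F : ℝ → ℂ} (hF : Continuous F) {l : ℝ} (hl : l ≠ 0) (r : ℝ) :
    ((Real.sqrt (l ^ 2 + (0 : ℝ)))⁻¹ : ℝ) •
      (∫ x in l * Real.cosh r - Real.sqrt (l ^ 2 + (0 : ℝ)) * Real.sinh r..
        l * Real.cosh r + Real.sqrt (l ^ 2 + (0 : ℝ)) * Real.sinh r, F x)
      = ∫ s in -r..r, scF F s l := by
  rw [add_zero, Real.sqrt_sq_eq_abs]
  have hsub : ∀ m : ℝ, ∫ s in -r..r, scF F s m
      = ∫ u in Real.exp (-r)..Real.exp r, F (u * m) := fun m => by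
    rw [← intervalIntegral.integral_deriv_smul_comp (f := Real.exp) (f' := Real.exp)
      (g := fun u => F (u * m)) (fun x _ => Real.hasDerivAt_exp x) Real.continuous_exp.continuousOn
      (by fun_prop)]
    exact intervalIntegral.integral_congr fun s _ => by simp [scF, Complex.real_smul]
  rw [hsub, intervalIntegral.integral_comp_mul_right F hl]
  rcases lt_or_gt_of_ne hl with h | h
  · rw [abs_of_neg h, inv_neg, neg_smul, intervalIntegral.integral_symm, smul_neg]
    rw [show l * Real.cosh r - -l * Real.sinh r = Real.exp r * l by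
      rw [← Real.cosh_add_sinh]; ring, show l * Real.cosh r + -l * Real.sinh r =
          Real.exp (-r) * l by
      rw [← Real.cosh_sub_sinh]; ring]
    simp
  · rw [abs_of_pos h, show l * Real.cosh r - l * Real.sinh r = Real.exp (-r) * l by
      rw [← Real.cosh_sub_sinh]; ring, show l * Real.cosh r + l * Real.sinh r = Real.exp r * l by
      rw [← Real.cosh_add_sinh]; ring]

/-- A function with the mean value property and limit zero vanishes. -/
lemma eq_zero_of_mean {φ : ℝ → ℂ} (hc : Continuous φ)
    (h : ∀ x r, 0 < r → ∫ s in x - r..x + r, φ s = ((2 * r : ℝ) : ℂ) * φ x)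
    (hlim : Tendsto φ atTop (𝓝 0)) : φ 0 = 0 := by
  -- differentiate the mean value property at `r = 1`
  have hj : ∀ x : ℝ, φ (x + 1) + φ (x - 1) = 2 * φ x := fun x => by
    set P : ℝ → ℂ := fun y => ∫ s in (0 : ℝ)..y, φ s
    have hP : ∀ y, HasDerivAt P (φ y) y := fun y => (hc.integral_hasStrictDerivAt 0 y).hasDerivAt
    have h1 : HasDerivAt (fun r => P (x + r) - P (x - r)) (φ (x + 1) + φ (x - 1)) 1 := by
      have a := (hP (x + 1)).scomp (1 : ℝ) ((hasDerivAt_id (1 : ℝ)).const_add x)
      have b := (hP (x - 1)).scomp (1 : ℝ) ((hasDerivAt_id (1 : ℝ)).const_sub x)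
      exact (a.sub b).congr_deriv (by simp)
    have h2 : HasDerivAt (fun r : ℝ => ((2 * r : ℝ) : ℂ) * φ x) (2 * φ x) 1 := by
      have := ((hasDerivAt_id (1 : ℝ)).const_mul (2 : ℝ)).ofReal_comp.mul_const (φ x)
      simpa using this
    refine h1.unique (h2.congr_of_eventuallyEq ?_)
    filter_upwards [Ioi_mem_nhds (one_pos : (0 : ℝ) < 1)] with r hr
    rw [← h x r hr]
    exact intervalIntegral.integral_interval_sub_left (hc.intervalIntegrable _ _)
      (hc.intervalIntegrable _ _)
  set d := φ 1 - φ 0
  -- so `φ` is affine on the natural numbers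
  have hlin : ∀ n : ℕ, φ n = φ 0 + n * d := by
    suffices ∀ n : ℕ, φ n = φ 0 + n * d ∧ φ (n + 1) = φ 0 + (n + 1) * d from fun n => (this n).1
    intro n
    induction n with
    | zero => simp [d]
    | succ n ih =>
      push_cast
      refine ⟨ih.2, ?_⟩
      have e := hj (n + 1)
      rw [add_sub_cancel_right] at e
      linear_combination e + 2 * ih.2 - ih.1
  -- an affine sequence with limit zero is zero
  have ht : Tendsto (fun n : ℕ => φ 0 + (n : ℂ) * d) atTop (𝓝 0) :=
    (hlim.comp tendsto_natCast_atTop_atTop).congr hlin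
  have h1 := (ht.comp (tendsto_add_atTop_nat 1)).sub ht
  simp only [Function.comp_def, Nat.cast_add, Nat.cast_one] at h1
  have hd : d = 0 := by
    have h' : Tendsto (fun _ : ℕ => d) atTop (𝓝 (0 - 0)) := h1.congr fun n => by ring
    simpa using tendsto_nhds_unique tendsto_const_nhds h'
  simpa [hd] using ht

/-- The Siegel set above the height `T`. -/
def SgAbove (T : ℝ) : Set H3 := Sg ∩ {w | T ≤ (H3.coord w).2}

/-- Few isotropic points of small height: the punctured sum is `O(MF L)` times the height above
`1 / (2 L)` in the Siegel set, and zero below. -/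
lemma norm_sG_punct_le (hW : IsEqv W) : ∃ C, 0 ≤ C ∧ ∀ (F : ℝ → ℂ) (MF L : ℝ), 0 ≤ MF → 0 < L →
    L < 1 / 4 → Supp L F → (∀ x, ‖F x‖ ≤ MF) → ∀ w ∈ Sg,
      ‖sG A 0 (punct W) F w‖
        ≤ C * MF * L * (SgAbove (1 / (2 * L))).indicator (fun u => (H3.coord u).2) w := by
  obtain ⟨B, hB0, hB⟩ := (isEqv_punct hW).exists_bound
  obtain ⟨Cp, hCp⟩ := A.bound
  have hCp0 : 0 ≤ Cp := (norm_nonneg _).trans (hCp 1 base)
  refine ⟨(Fintype.card (GN (3 * E)) : ℝ) * (Cp * B) * 4, by positivity,
    fun F MF L hMF hL hL4 hFs hFb w hw => ?_⟩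
  set t := (H3.coord w).2
  have ht := H3.coord_pos w
  have ht2 : 1 / 2 ≤ t := hw.2.2
  set k : ℕ := ⌊2 * t * L⌋₊
  let ι : ℤ → {X : Lz // q3 X = 0} := fun a => ⟨(a, (0, 0), 0), by simp [q3, qd]⟩
  set T := ((Finset.Icc (-(k : ℤ)) k).erase 0).image ι
  -- in the Siegel set only the points `(a, 0, 0)` with `|a| ≤ 2 t L` meet the support
  have hsupp : ∀ M, ∀ X : {X : Lz // q3 X = 0}, X ∉ T →
      punct W M X.1 * F (lin (vec X.1) w) = 0 := fun M X hX => by
    by_contra hne
    have hX0 : X.1 ≠ 0 := fun h => hne (by simp [punct, h])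
    have hl : |lin (vec X.1) w| ≤ L := not_lt.1 fun h => hne (by rw [hFs _ h, mul_zero])
    obtain ⟨⟨a, b, d⟩, hq⟩ := X
    rw [lin_eq_coord] at hl
    have hd : d = 0 := by
      by_contra hd
      have hd1 : (1 : ℝ) ≤ |(d : ℝ)| := by exact_mod_cast Int.one_le_abs hd
      have hqf : qf (vec (a, b, d)) = 0 := by
        have h2 := q3_eq (a, b, d); rw [hq] at h2; simpa using h2
      have e : (d : ℝ) * num (vec (a, b, d)) (H3.coord w).1
          = Complex.normSq (demb b - (d : ℂ) * (H3.coord w).1) := by
        simp only [qf, vec] at hqf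
        simp only [num, vec]
        rw [Complex.normSq_sub, map_mul, show ((d : ℤ) : ℂ) = ((d : ℝ) : ℂ) by push_cast; ring,
          Complex.normSq_ofReal]
        simp [Complex.mul_re, Complex.conj_re, Complex.conj_im]
        linear_combination -hqf
      set N := num (vec (a, b, d)) (H3.coord w).1
      have hge : (d : ℝ) ^ 2 * t / 2 ≤ |(d : ℝ)| * |(N / t + d * t) / 2| := by
        rw [← abs_mul]
        refine le_trans ?_ (le_abs_self _)
        have : 0 ≤ (d : ℝ) * N / t := div_nonneg (e ▸ Complex.normSq_nonneg _) ht.le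
        rw [show (d : ℝ) * ((N / t + d * t) / 2) = (d * N / t + d ^ 2 * t) / 2 by ring]
        linarith
      have hl' : |(N / t + d * t) / 2| ≤ L := by simpa [vec] using hl
      rw [← sq_abs] at hge
      nlinarith
    subst hd
    have hb : b = (0, 0) := by
      simp [q3, qd] at hq
      obtain ⟨b1, b2⟩ := b
      have h1 : (2 * b1 - b2) ^ 2 + 3 * b2 ^ 2 = 0 := by simp only at hq ⊢; linarith
      have h2 : b2 = 0 := by nlinarith [sq_nonneg (2 * b1 - b2)]
      subst h2
      simp at h1
      exact Prod.ext h1 rfl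
    subst hb
    refine hX (Finset.mem_image.2 ⟨a,
      Finset.mem_erase.2 ⟨fun ha => hX0 (by subst ha; rfl), ?_⟩, rfl⟩)
    have hl' : |(a : ℝ) / t / 2| ≤ L := by simpa [vec, num, demb] using hl
    rw [abs_div, abs_div, abs_of_pos ht, abs_two, div_div, div_le_iff₀ (by positivity)] at hl'
    have : (a.natAbs : ℕ) ≤ k := Nat.le_floor (by
      rw [Nat.cast_natAbs]; push_cast; linarith)
    rw [Finset.mem_Icc]; omega
  have hcard : ∀ M, ‖aM 0 (punct W M) F w‖ ≤ B * MF * (2 * k) := fun M => by
    rw [aM, tsum_eq_sum (s := T) (hsupp M)]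
    refine ((norm_sum_le _ _).trans (Finset.sum_le_card_nsmul _ _ (B * MF) fun X _ => ?_)).trans ?_
    · rw [norm_mul]
      exact mul_le_mul (hB _ _) (hFb _) (norm_nonneg _) hB0
    · rw [nsmul_eq_mul, mul_comm]
      refine mul_le_mul_of_nonneg_left ?_ (by positivity)
      have h1 : T.card ≤ 2 * k := Finset.card_image_le.trans (by
        rw [Finset.card_erase_of_mem (by simp), Int.card_Icc]; omega)
      exact_mod_cast h1
  by_cases hT : w ∈ SgAbove (1 / (2 * L))
  · rw [Set.indicator_of_mem hT, sG, pairSum]
    refine (norm_sum_le _ _).trans ((Finset.sum_le_card_nsmul _ _ (Cp * (B * MF * (2 * k)))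
      fun M _ => ?_).trans ?_)
    · rw [norm_mul]
      exact mul_le_mul (hCp _ _) (hcard M) (norm_nonneg _) hCp0
    · rw [nsmul_eq_mul, Finset.card_univ]
      have hk : (k : ℝ) ≤ 2 * t * L := Nat.floor_le (by positivity)
      calc _ ≤ (Fintype.card (GN (3 * E)) : ℝ) * (Cp * (B * MF * (2 * (2 * t * L)))) := by gcongr
        _ = _ := by ring
  · rw [Set.indicator_of_notMem hT, mul_zero]
    have hk : k = 0 := Nat.floor_eq_zero.2 (by
      have h : t < 1 / (2 * L) := not_le.1 fun h => hT ⟨hw, h⟩
      rw [lt_div_iff₀ (by positivity)] at h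
      linarith)
    simp only [sG, pairSum]
    rw [Finset.sum_eq_zero fun M _ => ?_, norm_zero]
    have := hcard M
    rw [hk] at this
    simp only [Nat.cast_zero, mul_zero, norm_le_zero_iff] at this
    rw [this, mul_zero]

/-- **The isotropic points away from the origin** contribute zero. -/
theorem I_punct_eq_zero (hW : IsEqv W) {F : ℝ → ℂ} (hF : Continuous F) {B : ℝ} (hB : Supp B F) :
    (sampI 0 (A.pair (isEqv_punct hW))).I F = 0 := by
  have hW' := isEqv_punct hW
  set S := sampI 0 (A.pair hW')
  have havg := avg_sampI (A.pair hW') (nondeg_punct W)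
  have hcs : ∀ G : ℝ → ℂ, Continuous G → Continuous (Function.uncurry (scF G)) := fun G hG => by
    unfold scF; fun_prop
  have hfam : ∀ a b : ℝ, ∃ B', ∀ s ∈ Icc a b, Supp B' (scF F s) := fun a b =>
    ⟨|B| * Real.exp (-a), fun s hs x hx => supp_scF hB s x (lt_of_le_of_lt
      ((mul_le_mul_of_nonneg_right (le_abs_self B) (Real.exp_pos _).le).trans
        (mul_le_mul_of_nonneg_left (Real.exp_le_exp.2 (by linarith [hs.1])) (abs_nonneg B))) hx)⟩
  set φ : ℝ → ℂ := fun s => S.I (scF F s)
  have hφc : Continuous φ := S.continuous_I (hcs F hF) hfam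
  have h0 : φ 0 = S.I F := by
    change S.I _ = _; congr 1; funext x; simp [scF]
  rw [← h0]
  -- the scaled functional has the mean value property and tends to zero
  refine eq_zero_of_mean hφc (fun x r hr => ?_) ?_
  · obtain ⟨B', hB'⟩ := hfam (x - r) (x + r)
    rw [S.integral_I (hcs F hF) (by linarith) hB']
    have hG : Continuous (scF F x) := (hcs F hF).comp (Continuous.prodMk_right x)
    have h := havg (scF F x) hG ⟨_, supp_scF hB x⟩ r hr
    rw [Int.cast_zero, zero_div] at h
    rw [← h]
    refine integral_congr_ae (Eventually.of_forall fun p => ?_)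
    change gI A.Φ (punct W) 0 p * _ = gI A.Φ (punct W) 0 p * _
    by_cases hX : p.1.2.1 = 0
    · simp [gI, punct, hX]
    congr 1
    have hl : S.l p ≠ 0 := lin_ne_zero p.1.2.2 hX p.2
    rw [avg_eq_scale hG hl r]
    rw [show (∫ s in -r..r, scF (scF F x) s (S.l p))
      = ∫ s in -r..r, scF F (s + x) (S.l p) from
      intervalIntegral.integral_congr fun s _ => by
        simp only [scF, Real.exp_add, Complex.ofReal_mul]
        rw [← mul_assoc, mul_comm (Real.exp s) (Real.exp x), ← mul_assoc (Real.exp x)],
      intervalIntegral.integral_comp_add_right (fun s => scF F s (S.l p)) x]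
    ring_nf
  · obtain ⟨C, hC0, hC⟩ := norm_sG_punct_le A hW
    obtain ⟨MF, hMF0, hMF⟩ := hB.exists_bound hF
    set B1 := |B| + 1
    have hB1 : 0 < B1 := by positivity
    set T : ℝ → ℝ := fun s => 1 / (2 * (B1 * Real.exp (-s)))
    have hT : Tendsto T atTop atTop := by
      have e : T = fun s => (1 / (2 * B1)) * Real.exp s := funext fun s => by
        simp only [T, Real.exp_neg]; field_simp
      rw [e]
      exact Tendsto.const_mul_atTop (by positivity) Real.tendsto_exp_atTop
    have hm : ∀ s, MeasurableSet (SgAbove (T s)) := fun s =>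
      measurableSet_Sg.inter (measurableSet_le measurable_const continuous_coord.snd.measurable)
    have hSi : Integrable (Sg.indicator fun u => (H3.coord u).2) hmeas := by
      have h := integrable_of_le_Sg (f := fun w =>
        ((Sg.indicator (fun u => (H3.coord u).2) w : ℝ) : ℂ))
        (Complex.measurable_ofReal.comp
          (continuous_coord.snd.measurable.indicator measurableSet_Sg))
        (C := 1) fun w => by
          rw [Complex.norm_real, Real.norm_of_nonneg
            (Set.indicator_nonneg (fun u _ => (H3.coord_pos u).le) w), one_mul]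
      exact h.re
    set b : ℝ → ℝ := fun s =>
      C * MF * B1 * ∫ w, (SgAbove (T s)).indicator (fun u => (H3.coord u).2) w ∂hmeas
    have hle : ∀ s, ∀ w, ‖(SgAbove (T s)).indicator (fun u => (H3.coord u).2) w‖
        ≤ Sg.indicator (fun u => (H3.coord u).2) w := fun s w => by
      by_cases h : w ∈ SgAbove (T s)
      · rw [Set.indicator_of_mem h, Set.indicator_of_mem h.1,
          Real.norm_of_nonneg (H3.coord_pos w).le]
      · rw [Set.indicator_of_notMem h, norm_zero]
        exact Set.indicator_nonneg (fun u _ => (H3.coord_pos u).le) w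
    have hb : Tendsto b atTop (𝓝 0) := by
      have h := tendsto_integral_filter_of_dominated_convergence (μ := hmeas) (l := atTop)
        (Sg.indicator fun u => (H3.coord u).2) (f := fun (_ : H3) => (0 : ℝ))
        (F := fun s w => (SgAbove (T s)).indicator (fun u => (H3.coord u).2) w)
        (Eventually.of_forall fun s =>
          (continuous_coord.snd.measurable.indicator (hm s)).aestronglyMeasurable)
        (Eventually.of_forall fun s => Eventually.of_forall (hle s)) hSi
        (Eventually.of_forall fun w => tendsto_const_nhds.congr' (by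
          filter_upwards [hT.eventually_gt_atTop (H3.coord w).2] with s hs
          rw [Set.indicator_of_notMem fun h => absurd h.2 (not_le.2 hs)]))
      rw [integral_zero] at h
      simpa [b] using h.const_mul (C * MF * B1)
    refine squeeze_zero_norm' ?_ hb
    filter_upwards [eventually_gt_atTop (Real.log (4 * B1))] with s hs
    set L := B1 * Real.exp (-s)
    have hL : L < 1 / 4 := by
      have h := (Real.log_lt_iff_lt_exp (by positivity)).1 hs
      simp only [L, Real.exp_neg, ← div_eq_mul_inv]
      rw [div_lt_iff₀ (Real.exp_pos s)]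
      linarith
    have hsu : Supp L (scF F s) := fun x hx => supp_scF hB s x (lt_of_le_of_lt
      (mul_le_mul_of_nonneg_right ((le_abs_self B).trans (le_add_of_nonneg_right zero_le_one))
        (Real.exp_pos _).le) hx)
    have hG : Continuous (scF F s) := (hcs F hF).comp (Continuous.prodMk_right s)
    change ‖S.I (scF F s)‖ ≤ b s
    rw [I_eq_pairSum (A.pair hW') 0 (decay_of_supp hG hsu)]
    have hbd : ∀ x, ‖scF F s x‖ ≤ Real.exp s * MF := fun x => by
      rw [scF, norm_mul, Complex.norm_real, Real.norm_of_nonneg (Real.exp_pos _).le]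
      exact mul_le_mul_of_nonneg_left (hMF _) (Real.exp_pos _).le
    refine (norm_integral_le_of_norm_le (g := fun w => C * (Real.exp s * MF) * L *
      (SgAbove (T s)).indicator (fun u => (H3.coord u).2) w) ?_ ?_).trans_eq ?_
    · exact (hSi.mono' (continuous_coord.snd.measurable.indicator (hm s)).aestronglyMeasurable
        (Eventually.of_forall (hle s))).const_mul _
    · refine Eventually.of_forall fun w => ?_
      rw [norm_mul, Complex.norm_real, Real.norm_of_nonneg (part_rho0.nonneg w)]
      by_cases hw : w ∈ Sg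
      · refine (mul_le_of_le_one_left (norm_nonneg _) ?_).trans
          (hC (scF F s) _ L (by positivity) (by positivity) hL hsu hbd w hw)
        exact (rho0_le w).trans_eq (Set.indicator_of_mem hw _)
      · rw [show rho0 w = 0 from Set.indicator_of_notMem hw _, zero_mul]
        refine mul_nonneg (by positivity) (Set.indicator_nonneg (fun u _ => (H3.coord_pos u).le) w)
    · rw [integral_const_mul]
      simp only [b, L, Real.exp_neg]
      field_simp

/-- **The functional of norm zero vanishes.** -/
theorem cI_zero (hW : IsFam W) {F : ℝ → ℂ} (hF : Samp.Decay F) : cI A W 0 F = 0 := by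
  have hW' := isEqv_punct hW.eqv
  -- away from the origin there is nothing: the cut functions give zero
  have hp : (sampI 0 (A.pair hW')).I F = 0 := by
    refine tendsto_nhds_unique (Samp.tendsto_I_cut _ hF) ?_
    refine tendsto_const_nhds.congr fun j => (Eq.symm ?_)
    exact I_punct_eq_zero A hW.eqv
      ((Complex.continuous_ofReal.comp (by unfold Samp.cut; fun_prop)).mul hF.1)
          (B := j) fun x hx => by
        simp [Samp.cut, max_eq_left (show min 1 ((j : ℝ) - |x|) ≤ 0 from
          min_le_of_right_le (by linarith))]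
  obtain ⟨C1, -, hC1⟩ := exists_aM_bound hW'.exists_bound 0 hF
  -- split off the term at the origin
  have e : ∀ w, sG A 0 W F w = sG A 0 (punct W) F w + F 0 * ∑ M : GN (3 * E), A.Φ M w * W M 0 := by
    intro w
    simp only [sG, pairSum, Finset.mul_sum, ← Finset.sum_add_distrib]
    refine Finset.sum_congr rfl fun M _ => ?_
    obtain ⟨C2, -, hC2⟩ := exists_aM_bound (isEqv_orig hW.eqv).exists_bound 0 hF
    have e2 : aM 0 (W M) F w = aM 0 (punct W M) F w + aM 0 (orig W M) F w := by
      rw [aM, aM, aM, ← ((hC1 M w).1.of_norm).tsum_add ((hC2 M w).1.of_norm)]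
      refine tsum_congr fun X => ?_
      by_cases h : X.1 = 0
      · simp [punct, orig, h]
      · simp [punct, orig, h]
    rw [e2, aM_orig]; ring
  have hi : ∀ {V : Fam E}, IsEqv V → Integrable (fun w => (rho0 w : ℂ) * sG A 0 V F w) hmeas :=
    fun hV => integrable_rho0_pairSum (fun M => (A.cont M).measurable) (A.pair hV).bound
      hV.exists_bound 0 hF
  have hp' : ∫ w, (rho0 w : ℂ) * sG A 0 (punct W) F w ∂hmeas = 0 :=
    (I_eq_pairSum (A.pair hW') 0 hF).symm.trans hp
  -- so only the integral at the origin is left, and `integral_orig` kills it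
  rw [show cI A W 0 F = ∫ w, (rho0 w : ℂ) * sG A 0 W F w ∂hmeas from rfl,
    show (fun w => (rho0 w : ℂ) * sG A 0 W F w) = fun w => (rho0 w : ℂ) * sG A 0 (punct W) F w
    + F 0 * ((rho0 w : ℂ) * ∑ M : GN (3 * E), A.Φ M w * W M 0) from funext fun w => by rw [e]; ring,
    integral_add (hi hW') ?_, integral_const_mul, hp', integral_orig A hW.eqv, mul_zero, add_zero]
  refine Integrable.const_mul ?_ _
  have h : Integrable (fun w => (rho0 w : ℂ) * sG A 0 (orig W) (gs π) w) hmeas :=
    integrable_rho0_pairSum (fun M => (A.cont M).measurable) (A.pair (isEqv_orig hW.eqv)).bound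
      (isEqv_orig hW.eqv).exists_bound 0 (decay_gs Real.pi_pos)
  simpa [sG, pairSum, aM_orig, gs] using h

end Fermat.LTG.W1
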